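import Mathlib
import Fermat.Agent.H72.FDT.Interfaces

/-!
# P-FDT / FDT-U (helper55): only finitely many rational primes ramify in a number field

`Fermat.Agent.H55.finiteRamified : Fermat.Agent.H72.FiniteRamifiedStatement`, with the explicit
exceptional set `(discr L).natAbs.primeFactors`.
-/

set_option autoImplicit false

open scoped NumberField

namespace Fermat.Agent.H55

/-- Explicit form of FDT-U: a prime `P` of `𝓞 L` containing a prime number `ℓ` which does not
divide the discriminant of `L` is unramified over `ℤ`. -/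
theorem isUnramifiedAt_of_not_dvd_discr (L : Type) [Field L] [NumberField L] (ℓ : ℕ)
    (P : Ideal (𝓞 L)) [P.IsPrime] (hℓ : ℓ.Prime) (hd : ¬ (ℓ : ℤ) ∣ NumberField.discr L)
    (hP : (ℓ : 𝓞 L) ∈ P) : Algebra.IsUnramifiedAt ℤ P := by
  have hp : Prime (ℓ : ℤ) := Nat.prime_iff_prime_int.mp hℓ
  refine (NumberField.not_dvd_discr_iff_forall_mem L (𝓞 L) hp).mp hd P inferInstance ?_
  simpa using hP

/-- **FDT-U**: only finitely many rational primes ramify in a number field. -/
theorem finiteRamified : Fermat.Agent.H72.FiniteRamifiedStatement := by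
  intro L _ _
  refine ⟨(NumberField.discr L).natAbs.primeFactors, fun ℓ P _ hℓ hS hP => ?_⟩
  refine isUnramifiedAt_of_not_dvd_discr L ℓ P hℓ (fun hdvd => hS ?_) hP
  rw [Nat.mem_primeFactors]
  refine ⟨hℓ, ?_, ?_⟩
  · exact Int.natCast_dvd.mp hdvd
  · simpa using NumberField.discr_ne_zero L

end Fermat.Agent.H55
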